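import Mathlib.Algebra.BigOperators.Group.Finset.Basic
import Mathlib.Data.ZMod.Basic
import Mathlib.Data.Finset.Max
import Mathlib.RingTheory.Coprime.Lemmas
import Mathlib.Data.ZMod.Units
import Mathlib.RingTheory.Int.Basic
import Mathlib.Tactic.LinearCombination

/-!
# A zero sum containing a unit

Let `a i = p ^ w i * u i`, `p ∤ u i`, and suppose at least `p ^ j` of the `w i` are below `j` for
`1 ≤ j ≤ γ`. Adding the elements of highest level first, the set of subset sums modulo `p ^ γ`
grows at each step unless it contains all multiples of the new element, so some subset with a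
unit has sum divisible by `p ^ γ`.
-/

set_option autoImplicit false

namespace FA.DavenportLewis

open Finset

variable {ι : Type*}

/-- The sums of the subsets. -/
def subsetSums {M : ℕ} (a : ι → ZMod M) (B : Finset ι) : Finset (ZMod M) :=
  B.powerset.image fun W => ∑ i ∈ W, a i

theorem exists_saturated_or_growth [DecidableEq ι] {M : ℕ} (a : ι → ZMod M) (w : ι → ℕ)
    (B : Finset ι) :
    (∃ i ∈ B, ∀ t : ℕ, ∃ W ⊆ B, i ∉ W ∧ (∀ l ∈ W, w i ≤ w l) ∧ ∑ l ∈ W, a l = t • a i) ∨
      B.card + 1 ≤ (subsetSums a B).card := by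
  induction B using Finset.induction_on_min_value w with
  | empty => exact Or.inr (by simp [subsetSums])
  | insert i s his hmin ih =>
    rcases ih with ⟨l, hl, hsat⟩ | hgrow
    · refine Or.inl ⟨l, mem_insert_of_mem hl, fun t => ?_⟩
      obtain ⟨W, hW, h1, h2, h3⟩ := hsat t
      exact ⟨W, hW.trans (subset_insert _ _), h1, h2, h3⟩
    by_cases hinv : ∀ x ∈ subsetSums a s, x + a i ∈ subsetSums a s
    · have h : ∀ t : ℕ, t • a i ∈ subsetSums a s := by
        intro t
        induction t with
        | zero => exact mem_image.2 ⟨∅, by simp, by simp⟩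
        | succ t iht => rw [succ_nsmul]; exact hinv _ iht
      refine Or.inl ⟨i, mem_insert_self i s, fun t => ?_⟩
      obtain ⟨W, hW, hsum⟩ := mem_image.1 (h t)
      rw [mem_powerset] at hW
      exact ⟨W, hW.trans (subset_insert _ _), fun h' => his (hW h'), fun l hl => hmin l (hW hl),
        hsum⟩
    · push Not at hinv
      obtain ⟨x, hx, hxi⟩ := hinv
      refine Or.inr ?_
      rw [card_insert_of_notMem his]
      refine le_trans ?_ (card_le_card (s := insert (x + a i) (subsetSums a s)) fun y hy => ?_)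
      · rw [card_insert_of_notMem hxi]
        omega
      · obtain ⟨W, hW, hsum⟩ := mem_image.1 hx
        rw [mem_powerset] at hW
        rcases mem_insert.1 hy with rfl | hy
        · exact mem_image.2 ⟨insert i W, mem_powerset.2 (insert_subset_insert _ hW), by
            rw [sum_insert fun h' => his (hW h'), hsum, add_comm]⟩
        · obtain ⟨V, hV, hVs⟩ := mem_image.1 hy
          exact mem_image.2 ⟨V, mem_powerset.2 ((mem_powerset.1 hV).trans (subset_insert _ _)), hVs⟩

/-- **The zero sum.** -/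
theorem exists_zero_sum [Fintype ι] [DecidableEq ι] {p : ℕ} (hp : p.Prime) (w : ι → ℕ) (u : ι → ℤ)
    (hu : ∀ i, ¬(p : ℤ) ∣ u i) : ∀ γ : ℕ, 1 ≤ γ →
      (∀ j, 1 ≤ j → j ≤ γ → p ^ j ≤ (univ.filter fun i => w i < j).card) →
      ∃ T : Finset ι, (∀ i ∈ T, w i < γ) ∧ (∃ i ∈ T, w i = 0) ∧
        (p : ℤ) ^ γ ∣ ∑ i ∈ T, (p : ℤ) ^ w i * u i := by
  intro γ
  induction γ using Nat.strong_induction_on with
  | _ γ ih =>
    intro hγ hlev
    have : NeZero (p ^ γ) := ⟨pow_ne_zero _ hp.ne_zero⟩
    obtain ⟨a, ha⟩ : ∃ a : ι → ZMod (p ^ γ), a = fun i => (((p : ℤ) ^ w i * u i : ℤ) : ZMod _) :=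
      ⟨_, rfl⟩
    obtain ⟨B, hB⟩ : ∃ B, B = univ.filter fun i => w i < γ := ⟨_, rfl⟩
    rcases exists_saturated_or_growth a w B with ⟨i, hi, hsat⟩ | hgrow
    swap
    · refine absurd ((Nat.succ_le_succ (hlev γ hγ le_rfl)).trans
        ((hB ▸ le_refl _ : _ + 1 ≤ B.card + 1).trans (hgrow.trans (card_le_univ _)))) ?_
      rw [ZMod.card]
      omega
    rw [hB, mem_filter] at hi
    rcases Nat.eq_zero_or_pos (w i) with h0 | h0
    · obtain ⟨W, hW, hiW, -, hsum⟩ := hsat (p ^ γ - 1)
      refine ⟨insert i W, fun l hl => ?_, ⟨i, mem_insert_self _ _, h0⟩, ?_⟩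
      · rcases mem_insert.1 hl with rfl | hl
        · exact hi.2
        · have := hW hl
          rw [hB, mem_filter] at this
          exact this.2
      · rw [← Nat.cast_pow, ← ZMod.intCast_zmod_eq_zero_iff_dvd, Int.cast_sum]
        show ∑ l ∈ insert i W, (((p : ℤ) ^ w l * u l : ℤ) : ZMod (p ^ γ)) = 0
        rw [sum_insert hiW]
        simp only [ha] at hsum
        rw [hsum, ← succ_nsmul', Nat.sub_add_cancel (Nat.one_le_pow _ _ hp.pos), nsmul_eq_mul,
          ZMod.natCast_self, zero_mul]
    · obtain ⟨T, hT, hT0, X, hX⟩ :=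
        ih (w i) hi.2 h0 fun j hj hji => hlev j hj (hji.trans hi.2.le)
      obtain ⟨v, hv⟩ : ∃ v : ℤ, ((u i : ℤ) : ZMod (p ^ γ)) * (v : ZMod (p ^ γ)) = 1 := by
        have hunit : IsUnit ((u i : ℤ) : ZMod (p ^ γ)) := by
          rw [ZMod.coe_int_isUnit_iff_isCoprime]
          push_cast
          exact ((Nat.prime_iff_prime_int.1 hp).coprime_iff_not_dvd.2 (hu i)).pow_left
        exact ⟨((hunit.unit⁻¹ : (ZMod (p ^ γ))ˣ) : ZMod (p ^ γ)).val, by
          rw [Int.cast_natCast, ZMod.natCast_zmod_val, hunit.mul_val_inv]⟩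
      obtain ⟨W, hW, -, hWw, hsum⟩ := hsat (((-(X * v) : ℤ) : ZMod (p ^ γ))).val
      have hdis : Disjoint T W := disjoint_left.2 fun l hl hl' => by
        have := hT l hl
        have := hWw l hl'
        omega
      refine ⟨T ∪ W, fun l hl => ?_, ?_, ?_⟩
      · rcases mem_union.1 hl with hl | hl
        · exact (hT l hl).trans hi.2
        · have := hW hl
          rw [hB, mem_filter] at this
          exact this.2
      · obtain ⟨l, hl, hl0⟩ := hT0
        exact ⟨l, mem_union_left _ hl, hl0⟩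
      · rw [← Nat.cast_pow, ← ZMod.intCast_zmod_eq_zero_iff_dvd, sum_union hdis, hX, Int.cast_add,
          Int.cast_sum]
        simp only [ha] at hsum
        rw [hsum, nsmul_eq_mul, ZMod.natCast_zmod_val]
        push_cast
        linear_combination -(X : ZMod (p ^ γ)) * (p : ZMod (p ^ γ)) ^ w i * hv

end FA.DavenportLewis
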