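import Fermat.Agent.DavenportLewis.Contraction
import Fermat.Agent.DavenportLewis.ZeroSum
import Fermat.Agent.WaringAsymptotic.Local

/-!
# Zeros modulo prime powers

If more than `j k` of the exponents `w i` are below `j` for `1 ≤ j ≤ k` then
`∑ p ^ w i u i z i ^ k`, `p ∤ u i`, has for every `L` a zero modulo `p ^ L` with `p ∤ z i` for some `w i = 0`: modulo
`p ^ (v_p k + e)` by contraction or by a zero sum (and by hand for `k = p = 2`), then by lifting.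
-/

set_option autoImplicit false

namespace FA.DavenportLewis

open Finset FA.WaringAsymptotic

variable {ι : Type*} [Fintype ι]

/-- A sum divisible by `4` and a spare unit give a zero modulo `8`. -/
theorem exists_eight_of_four [DecidableEq ι] {w : ι → ℕ} {u : ι → ℤ} {T : Finset ι} {a c : ι}
    (ha : a ∈ T) (ha0 : w a = 0) (hcT : c ∉ T) (hc0 : w c = 0) (hc : ¬(2 : ℤ) ∣ u c)
    (h4 : (4 : ℤ) ∣ ∑ i ∈ T, 2 ^ w i * u i) :
    ∃ (z : ι → ℤ) (i₀ : ι), w i₀ = 0 ∧ ¬(2 : ℤ) ∣ z i₀ ∧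
      (8 : ℤ) ∣ ∑ i, 2 ^ w i * u i * z i ^ 2 := by
  obtain ⟨ζ, hζ⟩ : ∃ ζ : ℤ, (8 : ℤ) ∣ (∑ i ∈ T, 2 ^ w i * u i) + u c * ζ ^ 2 := by
    obtain ⟨y, hy⟩ := h4
    rcases Int.even_or_odd y with ⟨t, rfl⟩ | ⟨t, rfl⟩
    · exact ⟨0, t, by rw [hy]; ring⟩
    · obtain ⟨s, hs⟩ : ∃ s, u c = 2 * s + 1 := ⟨u c / 2, by omega⟩
      exact ⟨2, t + s + 1, by rw [hy, hs]; ring⟩
  refine ⟨fun i => if i ∈ T then 1 else if i = c then ζ else 0, a, ha0, ?_, ?_⟩
  · simp only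
    rw [if_pos ha]
    norm_num
  · rw [← sum_subset (s₁ := insert c T) (subset_univ _) fun i _ hi => ?_, sum_insert hcT,
      add_comm]
    · refine hζ.trans (dvd_of_eq ?_)
      dsimp only
      rw [if_neg hcT, if_pos rfl, hc0, pow_zero, one_mul]
      exact congrArg (· + _) (sum_congr rfl fun i hi => by rw [if_pos hi, one_pow, mul_one])
    · rw [mem_insert, not_or] at hi
      simp [hi.1, hi.2]

/-- Five variables, at least three of them units: a zero modulo `8`. -/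
theorem exists_quadratic_eight {w : ι → ℕ} {u : ι → ℤ} (hu : ∀ i, ¬(2 : ℤ) ∣ u i)
    (h1 : 3 ≤ (univ.filter fun i => w i < 1).card) (h2 : 5 ≤ (univ.filter fun i => w i < 2).card) :
    ∃ (z : ι → ℤ) (i₀ : ι), w i₀ = 0 ∧ ¬(2 : ℤ) ∣ z i₀ ∧
      (8 : ℤ) ∣ ∑ i, 2 ^ w i * u i * z i ^ 2 := by
  classical
  obtain ⟨U, hU⟩ : ∃ U, U = univ.filter fun i => w i < 1 := ⟨_, rfl⟩
  rw [← hU] at h1
  have hU0 : ∀ i ∈ U, w i = 0 := fun i hi => by
    rw [hU, mem_filter] at hi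
    omega
  by_cases hpair : ∃ a ∈ U, ∃ b ∈ U, a ≠ b ∧ (4 : ℤ) ∣ u a + u b
  · obtain ⟨a, ha, b, hb, hab, h4⟩ := hpair
    obtain ⟨c, hc, hcab⟩ : ∃ c ∈ U, c ∉ ({a, b} : Finset ι) :=
      exists_mem_notMem_of_card_lt_card (by rw [card_pair hab]; omega)
    refine exists_eight_of_four (mem_insert_self a _) (hU0 a ha) hcab (hU0 c hc) (hu c) ?_
    rw [sum_pair hab, hU0 a ha, hU0 b hb, pow_zero, one_mul, one_mul]
    exact h4
  push Not at hpair
  have hmod : ∀ a ∈ U, ∀ b ∈ U, (4 : ℤ) ∣ u a - u b := fun a ha b hb => by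
    rcases eq_or_ne a b with rfl | hne
    · simp
    · have := hpair a ha b hb hne
      have := hu a
      have := hu b
      omega
  by_cases hone : ∃ i, w i = 1
  · obtain ⟨e, he⟩ := hone
    obtain ⟨T, hTU, hT⟩ := exists_subset_card_eq h1
    obtain ⟨a, b, c, hab, hac, hbc, rfl⟩ := card_eq_three.1 hT
    have ha : a ∈ U := hTU (by simp)
    have hb : b ∈ U := hTU (by simp)
    have hne : ∀ x ∈ U, e ≠ x := fun x hx h => by
      subst h
      have := hU0 e hx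
      omega
    have hc : c ∈ U := hTU (by simp)
    refine exists_eight_of_four (T := insert e {a, b}) (a := a) (c := c) (by simp) (hU0 a ha)
      (by simp [(hne c hc).symm, hac.symm, hbc.symm]) (hU0 c hc) (hu c) ?_
    rw [sum_insert (by simp [hne a ha, hne b hb]), sum_pair hab, he, hU0 a ha, hU0 b hb, pow_zero,
      pow_one, one_mul, one_mul]
    have := hmod a ha b hb
    have := hu a
    have := hu e
    omega
  · have h5 : 5 ≤ U.card := by
      refine h2.trans (le_of_eq (congrArg card ?_))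
      rw [hU]
      refine filter_congr fun i _ => ?_
      have : w i ≠ 1 := fun h => hone ⟨i, h⟩
      omega
    obtain ⟨T, hTU, hT⟩ := exists_subset_card_eq (show 4 ≤ U.card by omega)
    obtain ⟨c, hc, hcT⟩ : ∃ c ∈ U, c ∉ T := exists_mem_notMem_of_card_lt_card (by omega)
    obtain ⟨a, ha⟩ : T.Nonempty := card_pos.1 (by omega)
    refine exists_eight_of_four ha (hU0 a (hTU ha)) hcT (hU0 c hc) (hu c) ?_
    have e : ∑ i ∈ T, (2 : ℤ) ^ w i * u i = ∑ i ∈ T, (u i - u c) + 4 * u c := by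
      rw [sum_sub_distrib, sum_const, hT, sum_congr rfl fun i hi => by
        rw [hU0 i (hTU hi), pow_zero, one_mul]]
      simp
    rw [e]
    exact dvd_add (dvd_sum fun i hi => hmod i (hTU hi) c hc) (dvd_mul_right _ _)

theorem add_one_pow_le (d p : ℕ) (hd : 1 ≤ d) (hdp : 2 * d + 1 ≤ p) :
    ∀ τ : ℕ, (d + 1) ^ (τ + 1) ≤ d * p ^ τ + 1
  | 0 => by simp
  | 1 => by rw [pow_one, pow_two]; nlinarith [Nat.mul_le_mul_left d hdp, Nat.le_mul_self d]
  | τ + 2 => by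
    have ih := add_one_pow_le d p hd hdp (τ + 1)
    have h1 : 1 ≤ p ^ (τ + 1) := Nat.one_le_pow _ _ (by omega)
    calc (d + 1) ^ (τ + 2 + 1) = (d + 1) ^ (τ + 1 + 1) * (d + 1) := pow_succ _ _
      _ ≤ (d * p ^ (τ + 1) + 1) * (d + 1) := Nat.mul_le_mul_right _ ih
      _ ≤ d * p ^ (τ + 1) * p + 1 := by
          nlinarith [Nat.mul_le_mul_left (d * p ^ (τ + 1)) hdp,
            Nat.mul_le_mul_left (d * d) h1]
      _ = _ := by rw [mul_assoc, ← pow_succ]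

/-- **A zero at the level of lifting.** -/
theorem exists_zero_low {p k : ℕ} (hp : p.Prime) (hk : 2 ≤ k) (w : ι → ℕ) (u : ι → ℤ)
    (hu : ∀ i, ¬(p : ℤ) ∣ u i)
    (hlev : ∀ j, 1 ≤ j → j ≤ k → j * k < (univ.filter fun i => w i < j).card) :
    ∃ e, 1 ≤ e ∧ (padicValNat p k = 0 ∨ p ≠ 2 ∨ 2 ≤ e) ∧ ∃ (z : ι → ℤ) (i₀ : ι),
      w i₀ = 0 ∧ ¬(p : ℤ) ∣ z i₀ ∧
        (p : ℤ) ^ (padicValNat p k + e) ∣ ∑ i, (p : ℤ) ^ w i * u i * z i ^ k := by
  classical
  have : Fact p.Prime := ⟨hp⟩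
  obtain ⟨τ, hτ⟩ : ∃ τ, τ = padicValNat p k := ⟨_, rfl⟩
  obtain ⟨k₀, hk₀⟩ : p ^ τ ∣ k := hτ ▸ pow_padicValNat_dvd
  have hk₀1 : 1 ≤ k₀ := Nat.pos_of_ne_zero fun h => by rw [h, mul_zero] at hk₀; omega
  have hpτ : p ^ τ ≤ k := hk₀ ▸ Nat.le_mul_of_pos_right _ hk₀1
  rw [← hτ]
  by_cases hcon : τ = 0 ∨ p ≠ 2 ∧ 2 * k₀ < p
  · refine ⟨1, le_rfl, hcon.imp_right fun h => Or.inl h.1, ?_⟩
    obtain ⟨S, hS⟩ : ∃ S, S = univ.filter fun i => w i < 1 := ⟨_, rfl⟩
    have hSk : k < S.card := by simpa [hS] using hlev 1 le_rfl (by omega)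
    have hS0 : ∀ i ∈ S, w i = 0 := fun i hi => by
      rw [hS, mem_filter] at hi
      omega
    have hmass : (k₀ + 1) ^ (τ + 1) ≤ k + 1 := by
      rcases hcon with h0 | ⟨-, hlt⟩
      · rw [h0, pow_zero, one_mul] at hk₀
        rw [h0, hk₀, zero_add, pow_one]
      · rw [hk₀, mul_comm (p ^ τ)]
        exact add_one_pow_le k₀ p hk₀1 hlt τ
    obtain ⟨z, ⟨i₀, hi₀, hz⟩, hsum⟩ := exists_zero_of_mass (k := k) (γ := τ + 1) hp hk₀1
      (fun z => by rw [hk₀]; exact pow_primePow_mul_congr hp τ k₀ z) (by omega) S.card S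
      (fun i => (p : ℤ) ^ w i * u i) (fun _ => 0) le_rfl (fun i _ => one_dvd _)
      (by simp only [Nat.zero_min, pow_zero, sum_const, smul_eq_mul, mul_one]; omega)
    refine ⟨fun i => if i ∈ S then z i else 0, i₀, hS0 i₀ hi₀, ?_, ?_⟩
    · simp only
      rw [if_pos hi₀]
      exact hz
    · rw [← sum_subset (subset_univ S) fun i _ hi => by simp [hi, zero_pow (show k ≠ 0 by omega)]]
      refine hsum.trans (dvd_of_eq (sum_congr rfl fun i hi => ?_))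
      simp only
      rw [if_pos hi]
  push Not at hcon
  obtain ⟨hτ0, hp2⟩ := hcon
  have hτ1 : 1 ≤ τ := Nat.pos_of_ne_zero hτ0
  have hτk : τ < k := lt_of_lt_of_le (Nat.lt_pow_self hp.one_lt) hpτ
  by_cases hex : p = 2 ∧ τ = 1 ∧ k₀ = 1
  · obtain ⟨rfl, hτe, hk₀e⟩ := hex
    have hk2 : k = 2 := by rw [hk₀, hτe, hk₀e]; rfl
    subst hk2
    refine ⟨2, one_le_two, Or.inr (Or.inr le_rfl), ?_⟩
    obtain ⟨z, i₀, h1, h2, h3⟩ := exists_quadratic_eight (w := w) (u := u) hu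
      (hlev 1 le_rfl one_le_two) (hlev 2 one_le_two le_rfl)
    exact ⟨z, i₀, h1, h2, by rw [hτe]; exact h3⟩
  obtain ⟨e, he, he2, hek, hbig⟩ : ∃ e, 1 ≤ e ∧ (τ = 0 ∨ p ≠ 2 ∨ 2 ≤ e) ∧ τ + e ≤ k ∧
      ∀ j, τ < j → j ≤ τ + e → p ^ j ≤ j * k + 1 := by
    rcases eq_or_ne p 2 with rfl | hne
    · refine ⟨2, one_le_two, Or.inr (Or.inr le_rfl), ?_, fun j hj hje => ?_⟩
      · by_contra h
        refine hex ⟨rfl, ?_⟩
        have h4 : 2 ^ τ ≤ τ + 1 := by omega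
        have : τ < 2 := by
          by_contra h5
          obtain ⟨t, rfl⟩ : ∃ t, τ = t + 2 := ⟨τ - 2, by omega⟩
          have := Nat.lt_two_pow_self (n := t)
          rw [pow_add] at h4
          omega
        have hτe : τ = 1 := by omega
        subst hτe
        omega
      · rw [hk₀, ← mul_assoc, mul_comm j, mul_assoc]
        refine le_trans ?_ (Nat.le_succ _)
        rw [show j = τ + (j - τ) by omega, pow_add]
        refine Nat.mul_le_mul_left _ ?_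
        obtain h | h : j = τ + 1 ∨ j = τ + 2 := by omega
        · rw [h, show τ + 1 - τ = 1 by omega]
          nlinarith
        · rw [h, show τ + 2 - τ = 2 by omega]
          have h4 : 2 ≤ τ ∨ 2 ≤ k₀ := by
            by_contra h'
            exact hex ⟨rfl, by omega, by omega⟩
          rcases h4 with h4 | h4 <;> nlinarith
    · refine ⟨1, le_rfl, Or.inr (Or.inl hne), hτk, fun j hj hje => ?_⟩
      rw [show j = τ + 1 by omega, pow_succ, hk₀]
      have := hp2 hne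
      calc p ^ τ * p ≤ p ^ τ * ((τ + 1) * k₀) :=
            Nat.mul_le_mul_left _ (this.trans (Nat.mul_le_mul_right _ (by omega)))
        _ ≤ _ := by rw [mul_left_comm]; exact Nat.le_succ _
  obtain ⟨T, -, ⟨i₀, hi₀, hi₀0⟩, hsum⟩ := exists_zero_sum hp w u hu (τ + e) (by omega)
    fun j hj hje => by
      have h := hlev j hj (hje.trans hek)
      rcases Nat.lt_or_ge τ j with hjτ | hjτ
      · exact (hbig j hjτ hje).trans h
      · refine le_trans ?_ h.le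
        exact (Nat.pow_le_pow_right hp.pos hjτ).trans (hpτ.trans (Nat.le_mul_of_pos_left _ hj))
  refine ⟨e, he, he2, fun i => if i ∈ T then 1 else 0, i₀, hi₀0, ?_, ?_⟩
  · simp only
    rw [if_pos hi₀]
    exact fun h => hp.not_dvd_one (Int.natCast_dvd_natCast.1 (by simpa using h))
  · rw [← sum_subset (subset_univ T) fun i _ hi => by simp [hi, zero_pow (show k ≠ 0 by omega)]]
    refine hsum.trans (dvd_of_eq (sum_congr rfl fun i hi => ?_))
    simp only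
    rw [if_pos hi, one_pow, mul_one]

/-- **A zero modulo every power.** -/
theorem exists_zero_modulo {p k : ℕ} (hp : p.Prime) (hk : 2 ≤ k) (w : ι → ℕ) (u : ι → ℤ)
    (hu : ∀ i, ¬(p : ℤ) ∣ u i)
    (hlev : ∀ j, 1 ≤ j → j ≤ k → j * k < (univ.filter fun i => w i < j).card) (L : ℕ) :
    ∃ (z : ι → ℤ) (i₀ : ι),
      ¬(p : ℤ) ∣ z i₀ ∧ (p : ℤ) ^ L ∣ ∑ i, (p : ℤ) ^ w i * u i * z i ^ k := by
  classical
  obtain ⟨e, he, he2, z, i₀, hw0, hz, hlow⟩ := exists_zero_low hp hk w u hu hlev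
  obtain ⟨τ, hτ⟩ : ∃ τ, τ = padicValNat p k := ⟨_, rfl⟩
  obtain ⟨M, hM⟩ : ∃ M, M = max L (τ + e) := ⟨_, rfl⟩
  obtain ⟨R, hR⟩ : ∃ R, R = ∑ i ∈ univ.erase i₀, (p : ℤ) ^ w i * u i * z i ^ k := ⟨_, rfl⟩
  rw [← add_sum_erase _ _ (mem_univ i₀), ← hR, hw0, pow_zero, one_mul, ← hτ] at hlow
  have : NeZero (p ^ M) := ⟨pow_ne_zero _ hp.ne_zero⟩
  obtain ⟨u', hu'⟩ : ∃ u' : ℤ, (p : ℤ) ^ M ∣ u i₀ * u' - 1 := by
    have hunit : IsUnit ((u i₀ : ℤ) : ZMod (p ^ M)) := by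
      rw [ZMod.coe_int_isUnit_iff_isCoprime]
      push_cast
      exact ((Nat.prime_iff_prime_int.1 hp).coprime_iff_not_dvd.2 (hu i₀)).pow_left
    refine ⟨((hunit.unit⁻¹ : (ZMod (p ^ M))ˣ) : ZMod (p ^ M)).val, ?_⟩
    rw [← Int.natCast_pow, ← ZMod.intCast_zmod_eq_zero_iff_dvd]
    push_cast
    rw [ZMod.natCast_zmod_val, hunit.mul_val_inv, sub_self]
  have hb : (p : ℤ) ^ (τ + e) ∣ z i₀ ^ k - -(u' * R) := by
    rw [show z i₀ ^ k - -(u' * R) = u' * (u i₀ * z i₀ ^ k + R) - (u i₀ * u' - 1) * z i₀ ^ k by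
      ring]
    exact dvd_sub (hlow.mul_left _)
      (((pow_dvd_pow _ (hM ▸ le_max_right _ _)).trans hu').mul_right _)
  obtain ⟨x, hx, hxd⟩ := exists_pow_congr_unit hp (show 1 ≤ k by omega) he he2 hz
    (hτ ▸ hb) M (hτ ▸ hM ▸ le_max_right _ _)
  refine ⟨Function.update z i₀ x, i₀, by rwa [Function.update_self],
    (pow_dvd_pow _ (hM ▸ le_max_left _ _)).trans (?_ : (p : ℤ) ^ M ∣ _)⟩
  rw [← add_sum_erase _ _ (mem_univ i₀), Function.update_self,
    sum_congr rfl fun i hi => by rw [Function.update_of_ne (ne_of_mem_erase hi)], ← hR, hw0,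
    pow_zero, one_mul,
    show u i₀ * x ^ k + R = u i₀ * (x ^ k - -(u' * R)) - (u i₀ * u' - 1) * R by ring]
  exact dvd_sub (hxd.mul_left _) (hu'.mul_right _)

end FA.DavenportLewis
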