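import Mathlib.FieldTheory.ChevalleyWarning
import Mathlib.FieldTheory.Finite.Basic
import Mathlib.RingTheory.MvPolynomial.Homogeneous
import Mathlib.Tactic.LinearCombination

/-!
# Contraction of variables

Any `d + 1` variables of one level combine, by the theorem of Chevalley and Warning in degree `d`,
to a variable of a higher level; `(d + 1) ^ γ` in the weight `(d + 1) ^ level` give a zero modulo
`p ^ γ`.
-/

set_option autoImplicit false

namespace FA.DavenportLewis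

open Finset

variable {ι : Type*}

theorem exists_chevalley_zero {p d : ℕ} (hp : p.Prime) (hd : 1 ≤ d) {Q : Finset ι}
    (hQ : d < Q.card) (b : ι → ℤ) :
    ∃ z : ι → ℤ, (∃ i ∈ Q, ¬(p : ℤ) ∣ z i) ∧ (p : ℤ) ∣ ∑ i ∈ Q, b i * z i ^ d := by
  classical
  have : Fact p.Prime := ⟨hp⟩
  obtain ⟨f, hf⟩ : ∃ f : MvPolynomial Q (ZMod p),
      f = ∑ i : Q, MvPolynomial.C (b i : ZMod p) * MvPolynomial.X i ^ d := ⟨_, rfl⟩
  have hdeg : f.totalDegree < Fintype.card Q := by
    have hle : f.totalDegree ≤ d := by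
      rw [hf]
      exact MvPolynomial.IsHomogeneous.totalDegree_le
        (MvPolynomial.IsHomogeneous.sum _ _ d fun i _ =>
          (MvPolynomial.isHomogeneous_X_pow i d).C_mul _)
    rw [Fintype.card_coe]
    omega
  have heval : ∀ x : Q → ZMod p, MvPolynomial.eval x f = ∑ i : Q, (b i : ZMod p) * x i ^ d :=
    fun x => by simp [hf]
  have hzero : MvPolynomial.eval (0 : Q → ZMod p) f = 0 := by
    rw [heval]; simp [zero_pow (show d ≠ 0 by omega)]
  have h1 : 1 < Fintype.card { x : Q → ZMod p // MvPolynomial.eval x f = 0 } := by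
    refine lt_of_lt_of_le hp.one_lt (Nat.le_of_dvd ?_ (char_dvd_card_solutions p hdeg))
    exact Fintype.card_pos_iff.2 ⟨⟨0, hzero⟩⟩
  obtain ⟨⟨x, hx⟩, hne⟩ := Fintype.exists_ne_of_one_lt_card h1 ⟨0, hzero⟩
  obtain ⟨i₀, hi₀⟩ := Function.ne_iff.1 (fun e : x = 0 => hne (Subtype.ext e))
  obtain ⟨z, hz⟩ : ∃ z : ι → ℤ, z = fun i => if h : i ∈ Q then ((x ⟨i, h⟩).val : ℤ) else 0 :=
    ⟨_, rfl⟩
  have hzq : ∀ i : Q, (z i : ZMod p) = x i := fun i => by simp [hz]
  refine ⟨z, ⟨i₀, i₀.2, fun hdvd => hi₀ ?_⟩, ?_⟩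
  · rw [Pi.zero_apply, ← hzq i₀]
    exact (ZMod.intCast_zmod_eq_zero_iff_dvd _ _).2 hdvd
  · rw [← ZMod.intCast_zmod_eq_zero_iff_dvd]
    push_cast
    rw [← hx, heval, ← sum_coe_sort]
    exact sum_congr rfl fun i _ => by rw [hzq]

theorem pow_primePow_mul_congr {p : ℕ} (hp : p.Prime) (τ d : ℕ) (z : ℤ) :
    (p : ℤ) ∣ z ^ (p ^ τ * d) - z ^ d := by
  have : Fact p.Prime := ⟨hp⟩
  rw [← ZMod.intCast_zmod_eq_zero_iff_dvd]
  push_cast
  rw [pow_mul, ZMod.pow_card_pow, sub_self]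

/-- **Repeated contraction.** -/
theorem exists_zero_of_mass {p d k γ : ℕ} (hp : p.Prime) (hd : 1 ≤ d)
    (hk : ∀ z : ℤ, (p : ℤ) ∣ z ^ k - z ^ d) (hk0 : k ≠ 0) :
    ∀ (N : ℕ) (S : Finset ι) (a : ι → ℤ) (L : ι → ℕ), S.card ≤ N →
      (∀ i ∈ S, (p : ℤ) ^ L i ∣ a i) → (d + 1) ^ γ ≤ ∑ i ∈ S, (d + 1) ^ min (L i) γ →
      ∃ z : ι → ℤ, (∃ i ∈ S, ¬(p : ℤ) ∣ z i) ∧ (p : ℤ) ^ γ ∣ ∑ i ∈ S, a i * z i ^ k := by
  classical
  intro N
  induction N with
  | zero =>
    intro S a L hS _ hmass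
    rw [card_eq_zero.1 (Nat.le_zero.1 hS), sum_empty] at hmass
    exact absurd hmass (Nat.not_le.2 (pow_pos (Nat.succ_pos d) γ))
  | succ N ih =>
    intro S a L hS ha hmass
    by_cases htop : ∃ i ∈ S, γ ≤ L i
    · obtain ⟨i, hi, hiγ⟩ := htop
      refine ⟨fun l => if l = i then 1 else 0, ⟨i, hi, ?_⟩, ?_⟩
      · simp only [↓reduceIte]
        exact fun h => hp.not_dvd_one (Int.natCast_dvd_natCast.1 (by simpa using h))
      · dsimp only
        rw [sum_eq_single i (fun l _ hl => by rw [if_neg hl, zero_pow hk0, mul_zero])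
          (fun h => absurd hi h), if_pos rfl, one_pow, mul_one]
        exact (pow_dvd_pow _ hiγ).trans (ha i hi)
    push Not at htop
    obtain ⟨j, hjγ, hj⟩ : ∃ j, j < γ ∧ d < (S.filter fun i => L i = j).card := by
      by_contra hcon
      push Not at hcon
      refine absurd hmass (Nat.not_le.2 ?_)
      rw [← sum_fiberwise_of_maps_to (t := range γ) (g := L) fun i hi => mem_range.2 (htop i hi)]
      refine lt_of_le_of_lt (b := ∑ j ∈ range γ, d * (d + 1) ^ j) (sum_le_sum fun j hj => ?_) ?_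
      · rw [sum_congr rfl fun i hi => by
          rw [(mem_filter.1 hi).2, min_eq_left (mem_range.1 hj).le], sum_const, smul_eq_mul]
        exact Nat.mul_le_mul_right _ (hcon j (mem_range.1 hj))
      · rw [← mul_sum]
        have h := geom_sum_mul_add d γ
        rw [mul_comm]
        omega
    obtain ⟨Q, hQS, hQ⟩ := exists_subset_card_eq (Nat.succ_le_of_lt hj)
    have hQL : ∀ i ∈ Q, L i = j := fun i hi => (mem_filter.1 (hQS hi)).2
    have hQS' : Q ⊆ S := fun i hi => (mem_filter.1 (hQS hi)).1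
    obtain ⟨b, hb⟩ : ∃ b : ι → ℤ, ∀ i ∈ Q, a i = (p : ℤ) ^ j * b i := by
      refine ⟨fun i => a i / (p : ℤ) ^ j, fun i hi => ?_⟩
      rw [mul_comm, Int.ediv_mul_cancel (hQL i hi ▸ ha i (hQS' hi))]
    obtain ⟨x, ⟨i₁, hi₁, hx⟩, hxsum⟩ := exists_chevalley_zero hp hd (by omega : d < Q.card) b
    have hA : (p : ℤ) ^ (j + 1) ∣ ∑ i ∈ Q, a i * x i ^ k := by
      rw [sum_congr rfl fun i hi => by rw [hb i hi, mul_assoc], ← mul_sum, pow_succ]
      refine mul_dvd_mul_left _ ?_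
      have h2 : (p : ℤ) ∣ ∑ i ∈ Q, b i * (x i ^ k - x i ^ d) :=
        dvd_sum fun i _ => (hk _).mul_left _
      simpa [mul_sub] using dvd_add h2 hxsum
    obtain ⟨a', ha'⟩ : ∃ a' : ι → ℤ, a' = Function.update a i₁ (∑ i ∈ Q, a i * x i ^ k) :=
      ⟨_, rfl⟩
    obtain ⟨L', hL'⟩ : ∃ L' : ι → ℕ, L' = Function.update L i₁ (j + 1) := ⟨_, rfl⟩
    obtain ⟨R, hR⟩ : ∃ R, R = S \ Q := ⟨_, rfl⟩
    have hi₁R : i₁ ∉ R := by simp [hR, hi₁]
    have hne : ∀ i ∈ R, i ≠ i₁ := fun i hi e => hi₁R (e ▸ hi)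
    have hcard : (insert i₁ R).card ≤ N := by
      rw [card_insert_of_notMem hi₁R, hR, card_sdiff_of_subset hQS']
      have := card_le_card hQS'
      omega
    have hmass' : (d + 1) ^ γ ≤ ∑ i ∈ insert i₁ R, (d + 1) ^ min (L' i) γ := by
      rw [sum_insert hi₁R, sum_congr rfl fun i hi => by
        rw [hL', Function.update_of_ne (hne i hi)]]
      refine hmass.trans (le_of_eq ?_)
      rw [← sum_sdiff hQS', sum_congr rfl fun i (hi : i ∈ Q) => by
        rw [hQL i hi, min_eq_left hjγ.le], sum_const, smul_eq_mul, hQ, hR, hL',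
        Function.update_self, min_eq_left (Nat.succ_le_of_lt hjγ), Nat.succ_eq_add_one, pow_succ]
      ring
    obtain ⟨y, ⟨l, hl, hy⟩, hysum⟩ := ih (insert i₁ R) a' L' hcard (fun i hi => by
      rcases mem_insert.1 hi with rfl | hi
      · rw [ha', hL', Function.update_self, Function.update_self]; exact hA
      · rw [ha', hL', Function.update_of_ne (hne i hi), Function.update_of_ne (hne i hi)]
        exact ha i (hR ▸ hi |> fun h => (mem_sdiff.1 h).1)) hmass'
    refine ⟨fun i => if i ∈ Q then y i₁ * x i else y i, ?_, ?_⟩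
    · rcases mem_insert.1 hl with e | hl'
      · refine ⟨i₁, hQS' hi₁, ?_⟩
        simp only [if_pos hi₁]
        exact fun h => ((Nat.prime_iff_prime_int.1 hp).dvd_or_dvd h).elim (e ▸ hy) hx
      · rw [hR, mem_sdiff] at hl'
        exact ⟨l, hl'.1, by simp only [if_neg hl'.2]; exact hy⟩
    · refine hysum.trans (dvd_of_eq ?_)
      dsimp only
      rw [sum_insert hi₁R, ha', Function.update_self, ← sum_sdiff hQS', ← hR, add_comm, sum_mul]
      refine congrArg₂ _ (sum_congr rfl fun i hi => ?_) (sum_congr rfl fun i hi => ?_)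
      · rw [Function.update_of_ne (hne i hi), if_neg (mem_sdiff.1 (hR ▸ hi)).2]
      · rw [if_pos hi, mul_pow]; ring

end FA.DavenportLewis
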