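import Mathlib.Algebra.BigOperators.Intervals
import Mathlib.Data.Fintype.Card
import Mathlib.Data.Finset.Max
import Mathlib.Data.Int.Order.Lemmas
import Mathlib.Tactic.Linarith
import Mathlib.Tactic.Ring

/-!
# The normalisation of Davenport and Lewis

After a cyclic shift of the exponents modulo `k` at least the fraction `j / k` of them lie below
`j`, for every `j ≤ k`.
-/

set_option autoImplicit false

namespace FA.DavenportLewis

open Finset

variable {ι : Type*} [Fintype ι]

/-- The exponent of `v` after the shift by `r`, in `[0, k)`. -/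
def shiftLevel (k r v : ℕ) : ℕ := (v + (k - r)) % k

theorem shiftLevel_eq {k r v : ℕ} (hr : r < k) :
    shiftLevel k r v = if r ≤ v % k then v % k - r else v % k + k - r := by
  have h := Nat.mod_lt v (show k > 0 by omega)
  rw [shiftLevel, Nat.add_mod]
  split_ifs with hle
  · rcases Nat.eq_zero_or_pos r with rfl | hr0
    · simp
    · rw [Nat.mod_eq_of_lt (show k - r < k by omega),
        show v % k + (k - r) = (v % k - r) + k by omega,
        Nat.add_mod_right, Nat.mod_eq_of_lt (by omega)]
  · rw [Nat.mod_eq_of_lt (show k - r < k by omega), Nat.mod_eq_of_lt (by omega)]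
    omega

/-- **The cyclic shift.** -/
theorem exists_shift {k : ℕ} (hk : 0 < k) (v : ι → ℕ) : ∃ r < k, ∀ j ≤ k,
    j * Fintype.card ι ≤ k * (univ.filter fun i => shiftLevel k r (v i) < j).card := by
  classical
  obtain ⟨P, hP⟩ : ∃ P : ℕ → ℕ, P = fun t => (univ.filter fun i => v i % k < t).card := ⟨_, rfl⟩
  obtain ⟨G, hG⟩ : ∃ G : ℕ → ℤ, G = fun t => (k : ℤ) * P t - t * Fintype.card ι := ⟨_, rfl⟩
  obtain ⟨r, hr, hmin⟩ := (range k).exists_min_image G ⟨0, mem_range.2 hk⟩
  rw [mem_range] at hr
  refine ⟨r, hr, fun j hj => ?_⟩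
  have hPk : P k = Fintype.card ι := by
    rw [hP, ← card_univ]
    exact congrArg card (filter_true_of_mem fun i _ => Nat.mod_lt _ hk)
  have hGk : ∀ t ≤ k, G r ≤ G t := fun t ht => by
    rcases Nat.lt_or_ge t k with h | h
    · exact hmin t (mem_range.2 h)
    · rw [le_antisymm ht h]
      refine (hmin 0 (mem_range.2 hk)).trans (le_of_eq ?_)
      simp only [hG, hPk]
      simp [hP]
  have hsplit : ∀ t, r ≤ t → P t = P r + (univ.filter fun i => r ≤ v i % k ∧ v i % k < t).card :=
    fun t ht => by
      simp only [hP]
      rw [← card_union_of_disjoint (disjoint_filter.2 fun i _ h => by omega), ← filter_or]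
      exact congrArg card (filter_congr fun i _ => by omega)
  rcases Nat.lt_or_ge k (r + j) with h | h
  · have hcard : (univ.filter fun i => shiftLevel k r (v i) < j).card + P r =
        Fintype.card ι + P (r + j - k) := by
      have e : (univ.filter fun i => shiftLevel k r (v i) < j) =
          (univ.filter fun i => r ≤ v i % k ∧ v i % k < k) ∪
            univ.filter fun i => v i % k < r + j - k := by
        rw [← filter_or]
        refine filter_congr fun i _ => ?_
        have := Nat.mod_lt (v i) hk
        rw [shiftLevel_eq hr]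
        split_ifs <;> omega
      rw [e, card_union_of_disjoint (disjoint_filter.2 fun i _ hi => by omega), ← hPk,
        hsplit k hr.le]
      simp only [hP]
      omega
    have h1 := hGk (r + j - k) (by omega)
    simp only [hG] at h1
    rw [Nat.cast_sub h.le] at h1
    push_cast at h1
    refine Nat.cast_le (α := ℤ).1 ?_
    push_cast
    have hc : (((univ.filter fun i => shiftLevel k r (v i) < j).card : ℤ)) + P r =
        Fintype.card ι + P (r + j - k) := by exact_mod_cast hcard
    nlinarith [congrArg (fun x : ℤ => (k : ℤ) * x) hc]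
  · have hcard : P (r + j) = P r + (univ.filter fun i => shiftLevel k r (v i) < j).card := by
      rw [hsplit (r + j) (by omega)]
      congr 2
      refine filter_congr fun i _ => ?_
      have := Nat.mod_lt (v i) hk
      rw [shiftLevel_eq hr]
      split_ifs <;> omega
    have h1 := hGk (r + j) h
    simp only [hG, hcard] at h1
    push_cast at h1
    refine Nat.cast_le (α := ℤ).1 ?_
    push_cast
    linarith

/-- With more than `k ^ 2` exponents more than `j k` lie below `j`. -/
theorem exists_shift_of_sq_lt {k : ℕ} (hk : 0 < k) (v : ι → ℕ) (h : k * k < Fintype.card ι) :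
    ∃ r < k, ∀ j, 1 ≤ j → j ≤ k →
      j * k < (univ.filter fun i => shiftLevel k r (v i) < j).card := by
  obtain ⟨r, hr, hlev⟩ := exists_shift hk v
  refine ⟨r, hr, fun j hj hjk => Nat.lt_of_mul_lt_mul_left (a := k) ?_⟩
  calc k * (j * k) = j * (k * k) := by ring
    _ < j * Fintype.card ι := Nat.mul_lt_mul_of_pos_left h hj
    _ ≤ _ := hlev j hjk

theorem exists_mul_eq_of_shift {k r v V : ℕ} (hr : r < k) (hv : v ≤ V) :
    ∃ e : ℕ, v + k * e = r + k * V + shiftLevel k r v ∧ e ≤ r + k * V + k := by
  have h1 := Nat.mod_add_div v k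
  have h2 : k * (v / k) ≤ k * V := Nat.mul_le_mul_left k ((Nat.div_le_self v k).trans hv)
  have h3 : v / k ≤ V := (Nat.div_le_self v k).trans hv
  have h4 : V ≤ k * V := Nat.le_mul_of_pos_left V (by omega)
  rw [shiftLevel_eq hr]
  generalize v / k = q at h1 h2 h3
  split_ifs with hle
  · refine ⟨V - q, ?_, by omega⟩
    rw [Nat.mul_sub]
    omega
  · refine ⟨V + 1 - q, ?_, by omega⟩
    rw [Nat.mul_sub, Nat.mul_add, Nat.mul_one]
    omega

end FA.DavenportLewis
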