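import Fermat.Agent.DavenportLewis.Congruence
import Fermat.Agent.DavenportLewis.Levels
import Mathlib.NumberTheory.Padics.ProperSpace
import Mathlib.NumberTheory.Padics.RingHoms

/-!
# Diagonal forms in more than `k ^ 2` variables have `p`-adic zeros

The congruences of `Congruence` for integer approximations of the coefficients give approximate
zeros with a coordinate bounded from below, and `ℤ_p` is compact.
-/

set_option autoImplicit false

noncomputable section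

namespace FA.DavenportLewis

open Finset

variable {ι : Type*} [Fintype ι]

/-- Zeros modulo every power, before compactness. -/
theorem exists_approximate_zero {p k : ℕ} [hp : Fact p.Prime] (hk : 2 ≤ k) (v : ι → ℕ)
    (U : ι → ℤ_[p]) (hU : ∀ i, ‖U i‖ = 1) (hn : k * k < Fintype.card ι) :
    ∃ B : ℕ, ∀ L : ℕ, ∃ y : ι → ℤ_[p], (∃ i, (p : ℝ) ^ (-(B : ℤ)) ≤ ‖y i‖) ∧
      (p : ℤ_[p]) ^ L ∣ ∑ i, (p : ℤ_[p]) ^ v i * U i * y i ^ k := by
  classical
  obtain ⟨r, hr, hlev⟩ := exists_shift_of_sq_lt (show 0 < k by omega) v hn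
  obtain ⟨V, hV⟩ : ∃ V, V = univ.sup v := ⟨_, rfl⟩
  choose e he heB using fun i =>
    exists_mul_eq_of_shift hr (hV ▸ le_sup (mem_univ i) : v i ≤ V)
  refine ⟨r + k * V + k, fun L => ?_⟩
  obtain ⟨u, hu⟩ : ∃ u : ι → ℤ, u = fun i => ((PadicInt.toZModPow (L + 1) (U i)).val : ℤ) :=
    ⟨_, rfl⟩
  have : NeZero (p ^ (L + 1)) := ⟨pow_ne_zero _ hp.out.ne_zero⟩
  have happrox : ∀ i, (p : ℤ_[p]) ^ (L + 1) ∣ U i - u i := fun i => by
    rw [← Ideal.mem_span_singleton, ← PadicInt.ker_toZModPow, RingHom.mem_ker, map_sub,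
      map_intCast, hu, sub_eq_zero]
    simp
  have hunit : ∀ i, ¬(p : ℤ) ∣ u i := fun i hdvd => by
    obtain ⟨t, ht⟩ := hdvd
    have h : (p : ℤ_[p]) ∣ U i := by
      have h1 : (p : ℤ_[p]) ∣ (u i : ℤ_[p]) := ⟨(t : ℤ_[p]), by rw [ht]; push_cast; rfl⟩
      simpa using dvd_add ((dvd_pow_self _ L.succ_ne_zero).trans (happrox i)) h1
    exact (PadicInt.norm_lt_one_iff_dvd _).2 h |>.ne (hU i)
  obtain ⟨z, i₀, hz, hsum⟩ := exists_zero_modulo hp.out hk (fun i => shiftLevel k r (v i)) u hunit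
    hlev L
  refine ⟨fun i => (p : ℤ_[p]) ^ e i * (z i : ℤ_[p]), ⟨i₀, ?_⟩, ?_⟩
  · rw [norm_mul, PadicInt.norm_p_pow]
    have h1 : ‖(z i₀ : ℤ_[p])‖ = 1 := by
      refine le_antisymm (PadicInt.norm_le_one _) (not_lt.1 fun h => hz ?_)
      exact (PadicInt.norm_int_lt_one_iff_dvd _).1 h
    rw [h1, mul_one]
    exact zpow_le_zpow_right₀ (by exact_mod_cast hp.out.one_le)
      (neg_le_neg (Int.ofNat_le.2 (heB i₀)))
  · obtain ⟨t, ht⟩ := hsum
    have h1 : (p : ℤ_[p]) ^ L ∣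
        ∑ i, (p : ℤ_[p]) ^ v i * (U i - u i) * ((p : ℤ_[p]) ^ e i * (z i : ℤ_[p])) ^ k :=
      dvd_sum fun i _ =>
        ((((pow_dvd_pow _ L.le_succ).trans (happrox i)).mul_left _).mul_right _)
    have h2 : (p : ℤ_[p]) ^ L ∣
        ∑ i, (p : ℤ_[p]) ^ v i * (u i : ℤ_[p]) * ((p : ℤ_[p]) ^ e i * (z i : ℤ_[p])) ^ k := by
      refine ⟨(p : ℤ_[p]) ^ (r + k * V) * (t : ℤ_[p]), ?_⟩
      have h3 := congrArg (fun x : ℤ => (x : ℤ_[p])) ht
      push_cast at h3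
      rw [mul_left_comm, ← h3, mul_sum]
      refine sum_congr rfl fun i _ => ?_
      rw [← mul_assoc, ← mul_assoc, ← pow_add, ← he i, pow_add, mul_comm k, pow_mul]
      ring
    refine (dvd_add h1 h2).trans (dvd_of_eq ?_)
    rw [← sum_add_distrib]
    exact sum_congr rfl fun i _ => by ring

/-- **The theorem of Davenport and Lewis.** -/
theorem exists_padic_zero_diagonal {p k : ℕ} [hp : Fact p.Prime] (hk : 2 ≤ k) (c : ι → ℚ_[p])
    (hn : k * k < Fintype.card ι) :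
    ∃ x : ι → ℚ_[p], x ≠ 0 ∧ ∑ i, c i * x i ^ k = 0 := by
  classical
  by_cases hc : ∃ i, c i = 0
  · obtain ⟨i, hi⟩ := hc
    refine ⟨Pi.single i 1, fun h => one_ne_zero (α := ℚ_[p]) (by simpa using congrFun h i), ?_⟩
    rw [sum_eq_single i (fun l _ hl => by simp [hl, zero_pow (show k ≠ 0 by omega)])
      (fun h => absurd (mem_univ i) h), hi, zero_mul]
  push Not at hc
  obtain ⟨N, hN⟩ : ∃ N : ℕ, N = univ.sup fun i => (c i).valuation.natAbs := ⟨_, rfl⟩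
  obtain ⟨v, hv⟩ : ∃ v : ι → ℕ, ∀ i, (v i : ℤ) = (c i).valuation + N :=
    ⟨fun i => ((c i).valuation + N).toNat, fun i => Int.toNat_of_nonneg (by
      have : (c i).valuation.natAbs ≤ N :=
        hN ▸ le_sup (f := fun i => (c i).valuation.natAbs) (mem_univ i)
      omega)⟩
  have hp0 : (p : ℚ_[p]) ≠ 0 := by exact_mod_cast hp.out.ne_zero
  have hnorm : ∀ i, ‖c i * (p : ℚ_[p]) ^ (-(c i).valuation)‖ = 1 := fun i => by
    rw [norm_mul, Padic.norm_eq_zpow_neg_valuation (hc i), Padic.norm_p_zpow, ← zpow_add₀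
      (Nat.cast_ne_zero.2 hp.out.ne_zero)]
    simp
  obtain ⟨U, hU⟩ : ∃ U : ι → ℤ_[p], ∀ i, (U i : ℚ_[p]) = c i * (p : ℚ_[p]) ^ (-(c i).valuation) :=
    ⟨fun i => ⟨_, (hnorm i).le⟩, fun i => rfl⟩
  obtain ⟨B, hB⟩ :=
    exists_approximate_zero hk v U (fun i => by rw [PadicInt.norm_def, hU, hnorm]) hn
  obtain ⟨K, hK⟩ : ∃ K : ℕ → Set (ι → ℤ_[p]), K = fun L : ℕ =>
      (⋃ i, {y : ι → ℤ_[p] | (p : ℝ) ^ (-(B : ℤ)) ≤ ‖y i‖}) ∩
        {y | ‖∑ i, (p : ℤ_[p]) ^ v i * U i * y i ^ k‖ ≤ (p : ℝ) ^ (-(L : ℤ))} := ⟨_, rfl⟩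
  have hcont : Continuous fun y : ι → ℤ_[p] => ‖∑ i, (p : ℤ_[p]) ^ v i * U i * y i ^ k‖ := by
    fun_prop
  have hclosed : ∀ L, IsClosed (K L) := fun L => by
    rw [hK]
    exact (isClosed_iUnion_of_finite fun i => isClosed_le continuous_const (by fun_prop)).inter
      (isClosed_le hcont continuous_const)
  obtain ⟨y, hy⟩ := IsCompact.nonempty_iInter_of_sequence_nonempty_isCompact_isClosed K
    (fun L y hy => by
      rw [hK] at hy ⊢
      refine ⟨hy.1, (show _ ≤ (p : ℝ) ^ (-((L + 1 : ℕ) : ℤ)) from hy.2).trans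
        (zpow_le_zpow_right₀ (by exact_mod_cast hp.out.one_le) ?_)⟩
      push_cast
      linarith)
    (fun L => by
      obtain ⟨y, h1, h2⟩ := hB L
      refine ⟨y, ?_⟩
      rw [hK]
      exact ⟨Set.mem_iUnion.2 h1,
        (PadicInt.norm_le_pow_iff_mem_span_pow _ _).2 (Ideal.mem_span_singleton.2 h2)⟩)
    (hclosed 0).isCompact hclosed
  rw [Set.mem_iInter] at hy
  simp only [hK, Set.mem_inter_iff, Set.mem_iUnion, Set.mem_ofPred_eq] at hy
  obtain ⟨i₁, hi₁⟩ := (hy 0).1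
  have hzero : ∑ i, (p : ℤ_[p]) ^ v i * U i * y i ^ k = 0 := by
    refine norm_eq_zero.1 (le_antisymm (ge_of_tendsto' (x := Filter.atTop) ?_
      fun L => (hy L).2) (norm_nonneg _))
    simp only [zpow_neg, zpow_natCast]
    exact tendsto_inv_atTop_zero.comp
      (tendsto_pow_atTop_atTop_of_one_lt (by exact_mod_cast hp.out.one_lt))
  refine ⟨fun i => (y i : ℚ_[p]), fun h => ?_, ?_⟩
  · refine absurd hi₁ (not_le.2 ?_)
    rw [PadicInt.norm_def, show (y i₁ : ℚ_[p]) = 0 from congrFun h i₁, norm_zero]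
    exact zpow_pos (by exact_mod_cast hp.out.pos) _
  · have h := congrArg (fun x : ℤ_[p] => (x : ℚ_[p])) hzero
    simp only [PadicInt.coe_zero] at h
    rw [← PadicInt.Coe.ringHom_apply, map_sum] at h
    refine (mul_eq_zero.1 (?_ : (p : ℚ_[p]) ^ N * _ = 0)).resolve_left (pow_ne_zero _ hp0)
    rw [mul_sum]
    refine Eq.trans (sum_congr rfl fun i _ => ?_) h
    simp only [map_mul, map_pow, map_natCast, PadicInt.Coe.ringHom_apply, hU]
    rw [← zpow_natCast (p : ℚ_[p]) (v i), hv i, zpow_add₀ hp0, zpow_natCast, zpow_neg]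
    field_simp

/-- **The bound is sharp** when `k + 1` is prime: `∑ j, ε j p ^ j (x_{j,1} ^ k + ⋯ + x_{j,k} ^ k)`
has no nontrivial zero modulo `p ^ k`. -/
theorem forall_dvd_of_blocks {p k : ℕ} (hp : p.Prime) (hpk : p = k + 1) (ε : Fin k → ℤ)
    (hε : ∀ j, ¬(p : ℤ) ∣ ε j) (y : Fin k × Fin k → ℤ)
    (h : (p : ℤ) ^ k ∣ ∑ i : Fin k × Fin k, ε i.1 * (p : ℤ) ^ (i.1 : ℕ) * y i ^ k) :
    ∀ i, (p : ℤ) ∣ y i := by
  have : Fact p.Prime := ⟨hp⟩
  suffices ∀ (j : ℕ) (hj : j < k) (l : Fin k), (p : ℤ) ∣ y (⟨j, hj⟩, l) from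
    fun i => this i.1 i.1.2 i.2
  intro j
  induction j using Nat.strong_induction_on with
  | _ j ih =>
    intro hj l
    have hterm : ∀ i : Fin k, i ≠ (⟨j, hj⟩ : Fin k) → ∀ l, (p : ℤ) ^ (j + 1) ∣
        ε i * (p : ℤ) ^ (i : ℕ) * y (i, l) ^ k := by
      intro i hi l
      rcases lt_or_gt_of_ne (fun e : (i : ℕ) = j => hi (Fin.ext e)) with hlt | hgt
      · exact ((pow_dvd_pow _ (show j + 1 ≤ k from hj)).trans
          (pow_dvd_pow_of_dvd (ih i hlt i.2 l) k)).mul_left _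
      · exact ((pow_dvd_pow _ (show j + 1 ≤ i from hgt)).mul_left _).mul_right _
    have h1 : (p : ℤ) ^ (j + 1) ∣ ∑ l, ε ⟨j, hj⟩ * (p : ℤ) ^ j * y (⟨j, hj⟩, l) ^ k := by
      have h2 := (pow_dvd_pow _ (show j + 1 ≤ k from hj)).trans h
      rw [Fintype.sum_prod_type, ← add_sum_erase _ _ (mem_univ (⟨j, hj⟩ : Fin k))] at h2
      exact (dvd_add_left (dvd_sum fun i hi => dvd_sum fun l _ =>
        hterm i (ne_of_mem_erase hi) l)).1 h2
    rw [← mul_sum, mul_comm (ε _), mul_assoc, pow_succ] at h1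
    have h3 := ((Nat.prime_iff_prime_int.1 hp).dvd_or_dvd ((mul_dvd_mul_iff_left (pow_ne_zero _
      (Int.natCast_ne_zero.2 hp.ne_zero))).1 h1)).resolve_left (hε _)
    rw [← ZMod.intCast_zmod_eq_zero_iff_dvd] at h3 ⊢
    push_cast at h3
    by_contra hl
    obtain ⟨S, hS⟩ : ∃ S, S = univ.filter fun l : Fin k => (y (⟨j, hj⟩, l) : ZMod p) ≠ 0 :=
      ⟨_, rfl⟩
    have hpow : ∀ l : Fin k, (y (⟨j, hj⟩, l) : ZMod p) ^ k = if l ∈ S then 1 else 0 := fun l => by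
      split_ifs with hmem <;> simp only [hS, mem_filter, mem_univ, true_and] at hmem
      · have := ZMod.pow_card_sub_one_eq_one hmem
        rwa [show p - 1 = k by omega] at this
      · rw [not_not.1 hmem, zero_pow (show k ≠ 0 by omega)]
    rw [sum_congr rfl fun l _ => hpow l, ← sum_filter, filter_mem_eq_inter, univ_inter, sum_const,
      nsmul_one, ZMod.natCast_eq_zero_iff] at h3
    have hpos : 0 < S.card := card_pos.2 ⟨l, by rw [hS]; simp [hl]⟩
    have hle : S.card ≤ k := (card_le_univ _).trans (le_of_eq (Fintype.card_fin k))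
    have := Nat.le_of_dvd hpos h3
    omega

end FA.DavenportLewis
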