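import Fermat.Agent.BirchForms.Diagonal
import Fermat.Agent.BirchForms.Local
import Fermat.Agent.DavenportLewis.Padic

/-!
# Homogeneous additive equations

In more than `k (k + 1)` variables only the signs decide whether `∑ c i x i ^ k = 0` has a
nontrivial integer solution: the circle method of `BirchForms` needs nothing more, as `k (k + 1) ≥
k ^ 2`. For prime `k + 1` the bound `k ^ 2` is sharp.
-/

set_option autoImplicit false

noncomputable section

namespace FA.DavenportLewis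

open Finset FA.BirchForms

/-- **Diagonal equations in more than `k (k + 1)` variables.** -/
theorem exists_int_zero_iff {k n : ℕ} (hk : 2 ≤ k) (hn : k * (k + 1) < n) {c : Fin n → ℤ}
    (hc : ∀ i, c i ≠ 0) :
    (∃ x : Fin n → ℤ, x ≠ 0 ∧ ∑ i, c i * x i ^ k = 0) ↔
      Odd k ∨ (∃ i, 0 < c i) ∧ ∃ j, c j < 0 := by
  refine ⟨fun ⟨x, hx, h⟩ => ?_, fun hs => exists_zero_of_local hk hn hc hs fun p hp => Or.inr ?_⟩
  · refine odd_or_mixed_of_real hc (x := fun i => (x i : ℝ))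
      (fun e => hx (funext fun i => by simpa using congrFun e i)) ?_
    exact_mod_cast h
  · have : Fact p.Prime := ⟨hp⟩
    obtain ⟨x, hx, h⟩ := exists_padic_zero_diagonal hk (fun i => (c i : ℚ_[p]))
      (by rw [Fintype.card_fin]; nlinarith)
    exact primitiveZeros_of_padic hx h

/-- **`k ^ 2` variables do not suffice** when `k + 1` is prime. -/
theorem exists_blocks_no_zero {p k : ℕ} [hp : Fact p.Prime] (hk : 2 ≤ k) (hpk : p = k + 1) :
    ∃ c : Fin (k * k) → ℤ, (∀ i, c i ≠ 0) ∧ (∃ i, 0 < c i) ∧ (∃ i, c i < 0) ∧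
      ¬ ∃ x : Fin (k * k) → ℚ_[p], x ≠ 0 ∧ ∑ i, (c i : ℚ_[p]) * x i ^ k = 0 := by
  obtain ⟨ε, hε⟩ : ∃ ε : Fin k → ℤ, ε = fun j : Fin k => if (j : ℕ) = 0 then (1 : ℤ) else -1 :=
    ⟨_, rfl⟩
  have hε' : ∀ j, ¬(p : ℤ) ∣ ε j := fun j h => by
    refine hp.out.not_dvd_one (Int.natCast_dvd_natCast.1 ?_)
    rw [hε] at h
    simp only at h
    split_ifs at h
    · exact h
    · simpa using h
  obtain ⟨e, he⟩ : ∃ e : Fin (k * k) ≃ Fin k × Fin k, e = finProdFinEquiv.symm := ⟨_, rfl⟩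
  have hpos : (0 : ℤ) < p := by exact_mod_cast hp.out.pos
  refine ⟨fun i => ε (e i).1 * (p : ℤ) ^ ((e i).1 : ℕ), fun i => mul_ne_zero (fun h => hε' _ (by
    rw [h]; exact dvd_zero _)) (pow_ne_zero _ hpos.ne'),
    ⟨e.symm (⟨0, by omega⟩, ⟨0, by omega⟩), ?_⟩, ⟨e.symm (⟨1, by omega⟩, ⟨0, by omega⟩), ?_⟩, ?_⟩
  · simp [hε]
  · simpa [hε] using hp.out.pos
  rintro ⟨x, hx, h⟩
  obtain ⟨y, ⟨i, hi⟩, hy⟩ := primitiveZeros_of_padic hx h k
  refine hi ?_
  simpa using forall_dvd_of_blocks hp.out hpk ε hε' (fun q => y (e.symm q))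
    (hy.trans (dvd_of_eq (Fintype.sum_equiv e _ _ fun l => by simp))) (e i)

end FA.DavenportLewis
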